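import Fermat.Agent.S09.Core
import Fermat.Agent.S10
import Fermat.Agent.S11
import Fermat.Agent.S13

/-!
# S09 (Mazur for the Frey curve) from S12

`S10` (`p ∈ {5, 7, 13}`), `S11` (`p = 11`) and `S13` (reducible implies cofixed line) are proved.
So `S09` follows from `S12` (`p ≥ 17`) alone; this file records that implication with `S12` as an
explicit hypothesis, so that the final `S09.lean` is a one-liner once `S12` exists.
-/

set_option autoImplicit false
open WeierstrassCurve WeierstrassCurve.Affine WeierstrassCurve.Affine.Point

namespace Fermat.Agent.S09Top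

/-- `S09` from `S12` (the three other inputs `S10`, `S11`, `S13` being proved). -/
theorem s09_of_s12
    (h12 : ∀ P : FreyPackage, 17 ≤ P.p →
      ¬ HasGaloisStableCofixedLine (K := AlgebraicClosure ℚ) ℚ P.freyCurve P.p)
    (P : FreyPackage) :
    GaloisRepIsIrreducible (K := AlgebraicClosure ℚ) ℚ P.freyCurve P.p :=
  Fermat.Agent.S09Core.irreducible_of_parts P (Fermat.Agent.S13.result P)
    (Fermat.Agent.S10.result P) (Fermat.Agent.S11.result P) (h12 P)

end Fermat.Agent.S09Top
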